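import Mathlib.Analysis.SpecialFunctions.Gamma.Deligne
import Mathlib.Analysis.SpecialFunctions.Complex.Analytic
import Mathlib.Analysis.Meromorphic.Order

/-!
# Completing factors are determined by a functional equation

If a function with no zeros on `1 < re s` has two meromorphic completions by factors
`A^(s/2) Γℝ(s)^a Γℝ(s + 1)^b` satisfying functional equations, the factors are the same.
-/

set_option autoImplicit false
set_option linter.unusedSectionVars false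

noncomputable section

open Complex Filter Topology Set

namespace FA.ArtinFE

/-- `A^(s/2) Γℝ(s)^a Γℝ(s + 1)^b`. -/
def gamProd (A : ℝ) (a b : ℤ) (s : ℂ) : ℂ :=
  cexp (s / 2 * (Real.log A : ℂ)) * (Gammaℝ s ^ a * Gammaℝ (s + 1) ^ b)

theorem gamProd_eq {A : ℝ} (hA : 0 < A) (a b : ℤ) (s : ℂ) :
    gamProd A a b s = (A : ℂ) ^ (s / 2) * (Gammaℝ s ^ a * Gammaℝ (s + 1) ^ b) := by
  rw [gamProd, cpow_def_of_ne_zero (ofReal_ne_zero.2 hA.ne'), ← ofReal_log hA.le,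
    mul_comm (s / 2)]

theorem gamProd_one (s : ℂ) : gamProd 1 0 0 s = 1 := by simp [gamProd]

theorem gamma_ne_zero {s : ℂ} (hs : 0 < s.re) : Gammaℝ s ≠ 0 ∧ Gammaℝ (s + 1) ≠ 0 :=
  ⟨Gammaℝ_ne_zero_of_re_pos hs, Gammaℝ_ne_zero_of_re_pos (by simp; linarith)⟩

theorem gamProd_ne_zero (A : ℝ) (a b : ℤ) {s : ℂ} (hs : 0 < s.re) : gamProd A a b s ≠ 0 :=
  mul_ne_zero (exp_ne_zero _) (mul_ne_zero (zpow_ne_zero _ (gamma_ne_zero hs).1)
    (zpow_ne_zero _ (gamma_ne_zero hs).2))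

theorem gamProd_mul {A A' : ℝ} (hA : 0 < A) (hA' : 0 < A') (a b a' b' : ℤ) {s : ℂ}
    (hs : 0 < s.re) :
    gamProd A a b s * gamProd A' a' b' s = gamProd (A * A') (a + a') (b + b') s := by
  obtain ⟨h1, h2⟩ := gamma_ne_zero hs
  simp only [gamProd, Real.log_mul hA.ne' hA'.ne', ofReal_add, mul_add, Complex.exp_add,
    zpow_add₀ h1, zpow_add₀ h2]
  ring

theorem gamProd_zpow (A : ℝ) (a b k : ℤ) (s : ℂ) :
    gamProd A a b s ^ k = gamProd (A ^ k) (k * a) (k * b) s := by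
  simp only [gamProd, mul_zpow, ← zpow_mul, Real.log_zpow, ← Complex.exp_int_mul,
    mul_comm k a, mul_comm k b]
  congr 2
  push_cast
  ring

theorem gamProd_prod {ι : Type*} (t : Finset ι) {A : ι → ℝ} (hA : ∀ i ∈ t, 0 < A i)
    (a b k : ι → ℤ) {s : ℂ} (hs : 0 < s.re) :
    ∏ i ∈ t, gamProd (A i) (a i) (b i) s ^ k i =
      gamProd (∏ i ∈ t, A i ^ k i) (∑ i ∈ t, k i * a i) (∑ i ∈ t, k i * b i) s := by
  classical
  induction t using Finset.induction_on with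
  | empty => simp [gamProd_one]
  | insert i t hi ih =>
    rw [Finset.prod_insert hi, Finset.prod_insert hi, Finset.sum_insert hi, Finset.sum_insert hi,
      ih fun j hj => hA j (Finset.mem_insert_of_mem hj), gamProd_zpow,
      gamProd_mul (zpow_pos (hA i (Finset.mem_insert_self i t)) _)
        (Finset.prod_pos fun j hj => zpow_pos (hA j (Finset.mem_insert_of_mem hj)) _) _ _ _ _ hs]

theorem analyticAt_Gammaℝ {x : ℂ} (hx : Gammaℝ x ≠ 0) : AnalyticAt ℂ Gammaℝ x := by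
  simpa using (differentiable_Gammaℝ_inv.analyticAt x).fun_inv (inv_ne_zero hx)

theorem meromorphicAt_Gammaℝ (x : ℂ) : MeromorphicAt Gammaℝ x := by
  simpa using (differentiable_Gammaℝ_inv.analyticAt x).meromorphicAt.fun_inv

theorem analyticAt_Gammaℝ_add {x c : ℂ} (h : Gammaℝ (x + c) ≠ 0) :
    AnalyticAt ℂ (fun s => Gammaℝ (s + c)) x :=
  (analyticAt_Gammaℝ h).fun_comp (f := fun s : ℂ => s + c) (analyticAt_id.add analyticAt_const)

theorem analyticAt_expFac (A : ℝ) (x : ℂ) :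
    AnalyticAt ℂ (fun s : ℂ => cexp (s / 2 * (Real.log A : ℂ))) x :=
  (analyticAt_id.div_const.mul analyticAt_const).cexp

theorem analyticAt_gamProd (A : ℝ) (a b : ℤ) {x : ℂ} (h1 : Gammaℝ x ≠ 0)
    (h2 : Gammaℝ (x + 1) ≠ 0) : AnalyticAt ℂ (gamProd A a b) x :=
  (analyticAt_expFac A x).mul (((analyticAt_Gammaℝ h1).fun_zpow h1).mul
    ((analyticAt_Gammaℝ_add h2).fun_zpow h2))

theorem meromorphicAt_gamProd (A : ℝ) (a b : ℤ) (x : ℂ) : MeromorphicAt (gamProd A a b) x :=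
  (analyticAt_expFac A x).meromorphicAt.fun_mul (((meromorphicAt_Gammaℝ x).fun_zpow a).fun_mul
    (((meromorphicAt_Gammaℝ _).comp_analyticAt
      (f := Gammaℝ) (g := fun s : ℂ => s + 1) (analyticAt_id.add analyticAt_const)).fun_zpow b))

/-- A meromorphic function zero near one point is zero near all points. -/
theorem eventually_zero {G : ℂ → ℂ} (hG : Meromorphic G) {x₀ : ℂ}
    (h : ∀ᶠ z in 𝓝[≠] x₀, G z = 0) (x : ℂ) : ∀ᶠ z in 𝓝[≠] x, G z = 0 := by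
  rw [← meromorphicOrderAt_eq_top_iff]
  by_contra hne
  exact MeromorphicOn.meromorphicOrderAt_ne_top_of_isPreconnected (U := Set.univ) (fun z _ => hG z)
    isPreconnected_univ trivial trivial hne (meromorphicOrderAt_eq_top_iff.2 h)

theorem exponent_eq_zero {h g : ℂ → ℂ} {x : ℂ} {k : ℤ} (hh : AnalyticAt ℂ h x) (hh0 : h x ≠ 0)
    (hg : AnalyticAt ℂ g x) (hg0 : g x ≠ 0) (he : ∀ᶠ z in 𝓝[≠] x, h z = (z - x) ^ k * g z) :
    k = 0 := by
  have h1 : meromorphicOrderAt h x = (k : ℤ) :=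
    (meromorphicOrderAt_eq_int_iff hh.meromorphicAt).2 ⟨g, hg, hg0, he⟩
  have h2 : meromorphicOrderAt h x = ((0 : ℤ) : WithTop ℤ) :=
    (meromorphicOrderAt_eq_int_iff hh.meromorphicAt).2
      ⟨h, hh, hh0, Eventually.of_forall fun z => by simp⟩
  exact WithTop.coe_injective (h1.symm.trans h2)

theorem tendsto_one_sub_punctured (x : ℂ) :
    Tendsto (fun s : ℂ => 1 - s) (𝓝[≠] x) (𝓝[≠] (1 - x)) := by
  refine tendsto_nhdsWithin_iff.2 ⟨?_, eventually_nhdsWithin_of_forall fun s hs h => hs ?_⟩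
  · exact ((continuous_const.sub continuous_id).tendsto x).mono_left nhdsWithin_le_nhds
  · exact sub_right_injective h

/-- The only factor invariant under `s ↦ 1 - s` up to a constant is `1`. -/
theorem eq_one_of_symm {c : ℝ} (hc : 0 < c) {k l : ℤ} {W₁ W₂ : ℂ} (hW₁ : W₁ ≠ 0) (hW₂ : W₂ ≠ 0)
    (hG : ∀ x, ∀ᶠ s in 𝓝[≠] x, gamProd c k l (1 - s) * W₂ = W₁ * gamProd c k l s) :
    c = 1 ∧ k = 0 ∧ l = 0 := by
  set r := gamProd c k l
  have hh : ∀ x : ℂ, x.re ≤ 0 → AnalyticAt ℂ (fun s => r (1 - s) * W₂) x ∧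
      r (1 - x) * W₂ ≠ 0 := fun x hx => by
    have hre : 0 < (1 - x).re := by simp; linarith
    exact ⟨((analyticAt_gamProd c k l (gamma_ne_zero hre).1 (gamma_ne_zero hre).2).fun_comp
      (f := fun s : ℂ => 1 - s) (analyticAt_const.sub analyticAt_id)).mul analyticAt_const,
      mul_ne_zero (gamProd_ne_zero c k l hre) hW₂⟩
  have hpi : (2 : ℂ) * Real.pi ≠ 0 := mul_ne_zero two_ne_zero (ofReal_ne_zero.2 Real.pi_ne_zero)
  -- the principal part of `Γℝ` at `0`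
  have hpole : ∀ (n : ℤ) (z : ℂ), z ≠ 0 →
      Gammaℝ z ^ n = z ^ (-n) * (2 * Real.pi * Gammaℝ (z + 2)) ^ n := fun n z hz => by
    rw [zpow_neg, ← inv_zpow, ← mul_zpow]
    congr 1
    rw [Gammaℝ_add_two hz]
    field_simp
  have hk : k = 0 := by
    have hP0 : (2 : ℂ) * Real.pi * Gammaℝ (0 + 2) ≠ 0 :=
      mul_ne_zero hpi (Gammaℝ_ne_zero_of_re_pos (by simp))
    have h1 : Gammaℝ ((0 : ℂ) + 1) ≠ 0 := Gammaℝ_ne_zero_of_re_pos (by simp)
    refine neg_eq_zero.1 (exponent_eq_zero (hh 0 le_rfl).1 (hh 0 le_rfl).2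
      (g := fun z => W₁ * (cexp (z / 2 * (Real.log c : ℂ)) *
        ((2 * Real.pi * Gammaℝ (z + 2)) ^ k * Gammaℝ (z + 1) ^ l))) (x := 0) ?_ ?_ ?_)
    · exact analyticAt_const.mul ((analyticAt_expFac c 0).mul ((((analyticAt_const.mul
        (analyticAt_Gammaℝ_add (Gammaℝ_ne_zero_of_re_pos (by simp))))).fun_zpow hP0).mul
        ((analyticAt_Gammaℝ_add h1).fun_zpow h1)))
    · exact mul_ne_zero hW₁ (mul_ne_zero (exp_ne_zero _) (mul_ne_zero (zpow_ne_zero _ hP0)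
        (zpow_ne_zero _ h1)))
    · filter_upwards [hG 0, self_mem_nhdsWithin] with z hz hz0
      rw [hz, sub_zero, show r z = cexp (z / 2 * (Real.log c : ℂ)) * (Gammaℝ z ^ k * Gammaℝ (z + 1) ^ l)
        from rfl, hpole k z hz0]
      ring
  have hl : l = 0 := by
    have hz1 : Gammaℝ (-1 : ℂ) ≠ 0 := by
      rw [Ne, Gammaℝ_eq_zero_iff]
      rintro ⟨n, hn⟩
      have := congrArg Complex.re hn
      simp only [neg_re, one_re, mul_re, re_ofNat, natCast_re, im_ofNat, natCast_im, mul_zero,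
        sub_zero, neg_inj] at this
      have : (1 : ℕ) = 2 * n := by exact_mod_cast this
      omega
    have hP0 : (2 : ℂ) * Real.pi * Gammaℝ (-1 + 3) ≠ 0 :=
      mul_ne_zero hpi (Gammaℝ_ne_zero_of_re_pos (by norm_num))
    refine neg_eq_zero.1 (exponent_eq_zero (hh (-1) (by simp)).1 (hh (-1) (by simp)).2
      (g := fun z => W₁ * (cexp (z / 2 * (Real.log c : ℂ)) *
        ((2 * Real.pi * Gammaℝ (z + 3)) ^ l * Gammaℝ z ^ k))) (x := -1) ?_ ?_ ?_)
    · exact analyticAt_const.mul ((analyticAt_expFac c _).mul ((((analyticAt_const.mul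
        (analyticAt_Gammaℝ_add (Gammaℝ_ne_zero_of_re_pos (by norm_num))))).fun_zpow hP0).mul
        ((analyticAt_Gammaℝ hz1).fun_zpow hz1)))
    · exact mul_ne_zero hW₁ (mul_ne_zero (exp_ne_zero _) (mul_ne_zero (zpow_ne_zero _ hP0)
        (zpow_ne_zero _ hz1)))
    · filter_upwards [hG (-1), self_mem_nhdsWithin] with z hz hz0
      rw [hz, show r z = cexp (z / 2 * (Real.log c : ℂ)) * (Gammaℝ z ^ k * Gammaℝ (z + 1) ^ l)
        from rfl, hpole l (z + 1) (fun h => hz0 (eq_neg_of_add_eq_zero_left h)),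
        sub_neg_eq_add, show z + 1 + 2 = z + 3 by ring]
      ring
  subst hk hl
  have hL : Real.log c = 0 := by
    have hd : ∀ x : ℂ, r x = cexp (x / 2 * (Real.log c : ℂ)) := fun x => by simp [r, gamProd]
    have h0 : (fun s : ℂ => cexp ((1 - s) / 2 * (Real.log c : ℂ)) * W₂) =
        fun s : ℂ => W₁ * cexp (s / 2 * (Real.log c : ℂ)) := by
      refine AnalyticOnNhd.eq_of_frequently_eq (z₀ := 0) (fun x _ => ?_) (fun x _ => ?_)
        ((hG 0).mono fun z hz => by rwa [hd, hd] at hz).frequently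
      · exact (((analyticAt_const.sub analyticAt_id).div_const).mul
          analyticAt_const).cexp.mul analyticAt_const
      · exact analyticAt_const.mul (analyticAt_expFac c x)
    have e0 := congrFun h0 0
    have e1 := congrFun h0 1
    simp only [sub_zero, zero_div, zero_mul, Complex.exp_zero, mul_one, sub_self] at e0 e1
    rw [one_mul, ← e0, mul_assoc, mul_comm W₂, ← mul_assoc, ← Complex.exp_add] at e1
    have h2 : cexp (Real.log c : ℂ) = 1 := by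
      rw [show (Real.log c : ℂ) = 1 / 2 * (Real.log c : ℂ) + 1 / 2 * (Real.log c : ℂ) by ring]
      exact mul_right_cancel₀ hW₂ (e1.symm.trans (one_mul W₂).symm)
    rw [← ofReal_exp, ofReal_eq_one] at h2
    exact (Real.exp_eq_one_iff _).1 h2
  exact ⟨Real.eq_one_of_pos_of_log_eq_zero hc hL, rfl, rfl⟩

/-- **The completing factor is determined by the functional equation.** -/
theorem params_unique {A₁ A₂ : ℝ} (hA₁ : 0 < A₁) (hA₂ : 0 < A₂) {a₁ b₁ a₂ b₂ : ℤ}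
    {F F' Λ₁ Λ₁' Λ₂ Λ₂' : ℂ → ℂ} {W₁ W₂ : ℂ} (hW₁ : W₁ ≠ 0) (hW₂ : W₂ ≠ 0)
    (hF' : ∀ s : ℂ, 1 < s.re → F' s ≠ 0)
    (hm₁ : Meromorphic Λ₁) (hm₁' : Meromorphic Λ₁') (hm₂ : Meromorphic Λ₂)
    (hm₂' : Meromorphic Λ₂')
    (h₁ : ∀ s : ℂ, 1 < s.re → Λ₁ s = gamProd A₁ a₁ b₁ s * F s)
    (h₁' : ∀ s : ℂ, 1 < s.re → Λ₁' s = gamProd A₁ a₁ b₁ s * F' s)
    (h₂ : ∀ s : ℂ, 1 < s.re → Λ₂ s = gamProd A₂ a₂ b₂ s * F s)
    (h₂' : ∀ s : ℂ, 1 < s.re → Λ₂' s = gamProd A₂ a₂ b₂ s * F' s)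
    (he₁ : ∀ s, Λ₁ (1 - s) = W₁ * Λ₁' s) (he₂ : ∀ s, Λ₂ (1 - s) = W₂ * Λ₂' s) :
    A₁ = A₂ ∧ a₁ = a₂ ∧ b₁ = b₂ := by
  set r := gamProd (A₁ / A₂) (a₁ - a₂) (b₁ - b₂)
  have hr : ∀ s : ℂ, 0 < s.re → r s * gamProd A₂ a₂ b₂ s = gamProd A₁ a₁ b₁ s := fun s hs => by
    rw [gamProd_mul (div_pos hA₁ hA₂) hA₂ _ _ _ _ hs, div_mul_cancel₀ _ hA₂.ne', sub_add_cancel,
      sub_add_cancel]
  have hU : ∀ᶠ s in 𝓝[≠] (2 : ℂ), 1 < s.re :=
    nhdsWithin_le_nhds ((isOpen_lt continuous_const Complex.continuous_re).mem_nhds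
      (show (1 : ℝ) < (2 : ℂ).re by norm_num))
  have hrm : Meromorphic r := meromorphicAt_gamProd _ _ _
  have e1 : ∀ x, ∀ᶠ s in 𝓝[≠] x, Λ₁ s - r s * Λ₂ s = 0 :=
    eventually_zero (fun x => (hm₁ x).fun_sub ((hrm x).fun_mul (hm₂ x)))
      (hU.mono fun s hs => by
        rw [h₁ s hs, h₂ s hs, ← mul_assoc, hr s (one_pos.trans hs), sub_self])
  have e2 : ∀ x, ∀ᶠ s in 𝓝[≠] x, Λ₁' s - r s * Λ₂' s = 0 :=
    eventually_zero (fun x => (hm₁' x).fun_sub ((hrm x).fun_mul (hm₂' x)))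
      (hU.mono fun s hs => by
        rw [h₁' s hs, h₂' s hs, ← mul_assoc, hr s (one_pos.trans hs), sub_self])
  have hG : ∀ x, ∀ᶠ s in 𝓝[≠] x, r (1 - s) * W₂ = W₁ * r s := fun x => by
    refine (eventually_zero (G := fun s => r (1 - s) * W₂ - W₁ * r s) (fun y =>
      (((hrm (1 - y)).comp_analyticAt (g := fun s : ℂ => 1 - s)
        (analyticAt_const.sub analyticAt_id)).fun_mul (MeromorphicAt.const W₂ y)).fun_sub
          ((MeromorphicAt.const W₁ y).fun_mul (hrm y))) (x₀ := 2) ?_ x).mono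
      fun s hs => sub_eq_zero.1 hs
    filter_upwards [hU, e2 2, (tendsto_one_sub_punctured 2).eventually (e1 (1 - 2))]
      with s hs h2 h1
    have hne : Λ₂' s ≠ 0 := by
      rw [h₂' s hs]
      exact mul_ne_zero (gamProd_ne_zero _ _ _ (one_pos.trans hs)) (hF' s hs)
    refine (mul_eq_zero.1 (show (r (1 - s) * W₂ - W₁ * r s) * Λ₂' s = 0 from ?_)).resolve_right hne
    have q1 := he₁ s
    have q2 := he₂ s
    linear_combination -h1 + W₁ * h2 + q1 - r (1 - s) * q2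
  obtain ⟨hc, hk, hl⟩ := eq_one_of_symm (div_pos hA₁ hA₂) hW₁ hW₂ hG
  exact ⟨(div_eq_one_iff_eq hA₂.ne').1 hc, sub_eq_zero.1 hk, sub_eq_zero.1 hl⟩

end FA.ArtinFE

end
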