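import Fermat.Agent.ArtinFE.Infinite
import Fermat.Agent.ArtinFE.Gamma
import Fermat.Agent.ArtinL.Brauer
import Fermat.Agent.ArtinL.Inflation
import Fermat.Agent.HeckeFE.Extension

/-!
# Completed Artin L-series

A linear character has the completed L-series of its primitive Hecke character, or of the zeta
function; by Brauer's theorem every Artin L-series has a meromorphic completion with a functional
equation.
-/

set_option autoImplicit false
set_option linter.unusedSectionVars false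
set_option linter.style.haveILetI false

noncomputable section

open NumberField NumberField.InfinitePlace Module Finset Complex
open FA.ArtinL (artinL inducedFn galIncl artinL_sum artinL_zsmul artinL_induced artinL_one
  inducedFn_fixedField fixedEquiv)
open scoped Classical

namespace FA.ArtinFE

variable {K L : Type*} [Field K] [NumberField K] [Field L] [NumberField L] [Algebra K L]
  [IsGalois K L]

/-- The values of a linear character are roots of unity. -/
theorem coe_inv_eq_conj (ψ : (L ≃ₐ[K] L) →* ℂˣ) (σ : L ≃ₐ[K] L) :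
    ((ψ⁻¹) σ : ℂ) = starRingEnd ℂ (ψ σ : ℂ) := by
  rw [MonoidHom.inv_apply, Units.val_inv_eq_inv_val]
  refine Complex.inv_eq_conj (Complex.norm_eq_one_of_pow_eq_one (n := orderOf σ) ?_
    (orderOf_pos σ).ne')
  rw [← Units.val_pow_eq_pow_val, ← map_pow, pow_orderOf_eq_one, map_one, Units.val_one]

/-- Conjugating the class function conjugates the series. -/
theorem artinL_conj (f : (L ≃ₐ[K] L) → ℂ) (s : ℂ) :
    artinL (fun σ => starRingEnd ℂ (f σ)) s = starRingEnd ℂ (artinL f (starRingEnd ℂ s)) := by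
  rw [artinL, artinL, ← Complex.exp_conj, FA.ArtinL.artinLog, FA.ArtinL.artinLog, conj_tsum]
  congr 1
  refine tsum_congr fun p => ?_
  rw [FA.ArtinL.term, FA.ArtinL.term, map_div₀, map_mul, map_pow]
  congr 1
  · congr 1
    · simp [FA.ArtinL.coef, FA.ArtinL.localMean, map_sum]
    · congr 1
      rw [← map_neg, Complex.cpow_conj _ _ (by
        rw [natCast_arg]; exact Real.pi_ne_zero.symm), map_natCast, Complex.conj_conj]
  · simp

/-- Conjugating the character conjugates its L-series. -/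
theorem heckeL_conjChar (f : Ideal (𝓞 K) →* ℂ) (s : ℂ) :
    FA.Hecke.heckeL (FA.HeckeCharFE.conjChar f) s =
      starRingEnd ℂ (FA.Hecke.heckeL f (starRingEnd ℂ s)) := by
  rw [FA.Hecke.heckeL, FA.Hecke.heckeL, conj_tsum]
  refine tsum_congr fun J => ?_
  rw [FA.Hecke.lHom_apply, FA.Hecke.lHom_apply, map_mul]
  congr 1
  show _ ^ (-s) = starRingEnd ℂ (_ ^ (-(starRingEnd ℂ s)))
  rw [← map_neg, Complex.cpow_conj _ _ (by rw [natCast_arg]; exact Real.pi_ne_zero.symm),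
    map_natCast, Complex.conj_conj]

/-- The conductor of a linear character. -/
def linCond (ψ : (L ≃ₐ[K] L) →* ℂˣ) : Ideal (𝓞 K) := (exists_isCond ψ).choose

theorem linCond_ne_bot (ψ : (L ≃ₐ[K] L) →* ℂˣ) : linCond ψ ≠ ⊥ := (exists_isCond ψ).choose_spec.1

theorem isCond_linCond (ψ : (L ≃ₐ[K] L) →* ℂˣ) :
    IsCond (IntermediateField.fixedField ψ.ker) (linCond ψ) := (exists_isCond ψ).choose_spec.2

/-- The odd real places of a linear character. -/
def linS (ψ : (L ≃ₐ[K] L) →* ℂˣ) : Finset (InfinitePlace K) :=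
  realRam K (IntermediateField.fixedField ψ.ker)

/-- `|d| N 𝔣`. -/
def linA (ψ : (L ≃ₐ[K] L) →* ℂˣ) : ℕ := (discr K).natAbs * Ideal.absNorm (linCond ψ)

theorem linA_pos (ψ : (L ≃ₐ[K] L) →* ℂˣ) : 0 < linA ψ :=
  Nat.pos_of_ne_zero (mul_ne_zero (Int.natAbs_ne_zero.2 (discr_ne_zero K))
    fun h => linCond_ne_bot ψ (Ideal.absNorm_eq_zero_iff.1 h))

/-- The exponent of `Γℝ(s)`. -/
def linP (ψ : (L ≃ₐ[K] L) →* ℂˣ) : ℤ :=
  (nrRealPlaces K : ℤ) - (linS ψ).card + nrComplexPlaces K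

/-- The exponent of `Γℝ(s + 1)`. -/
def linM (ψ : (L ≃ₐ[K] L) →* ℂˣ) : ℤ := ((linS ψ).card : ℤ) + nrComplexPlaces K

theorem linP_add_linM (ψ : (L ≃ₐ[K] L) →* ℂˣ) : linP ψ + linM ψ = (finrank ℚ K : ℤ) := by
  rw [linP, linM, ← InfinitePlace.card_add_two_mul_card_eq_rank K]
  push_cast
  ring

theorem linP_sub_linM (ψ : (L ≃ₐ[K] L) →* ℂˣ) :
    ((linP ψ - linM ψ : ℤ) : ℂ) = (nrRealPlaces K : ℂ) - 2 * (linS ψ).card := by
  rw [linP, linM]
  push_cast
  ring

theorem linS_one : linS (1 : (L ≃ₐ[K] L) →* ℂˣ) = ∅ := by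
  refine Finset.eq_empty_of_forall_notMem fun w hw => ?_
  have hr := isReal_of_mem_realRam hw
  set φ := ComplexEmbedding.lift L w.embedding
  have hφ : φ.comp (algebraMap K L) = w.embedding := ComplexEmbedding.lift_comp_algebraMap L _
  obtain ⟨c, hc⟩ := exists_isConj (K := K) (φ := φ) (by rw [hφ]; exact isReal_iff.1 hr)
  have h := val_of_isConj (1 : (L ≃ₐ[K] L) →* ℂˣ) hc hφ
  rw [linS] at hw
  rw [if_pos hw, MonoidHom.one_apply, Units.val_one] at h
  norm_num at h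

theorem linCond_one : linCond (1 : (L ≃ₐ[K] L) →* ℂˣ) = ⊤ :=
  eq_top_of_isCond_one (isCond_linCond 1) (linCond_ne_bot 1)

theorem charFac_eq_gamProd {𝔣 : Ideal (𝓞 K)} (h𝔣 : 𝔣 ≠ ⊥) {S : Finset (InfinitePlace K)}
    (hS : ∀ w ∈ S, IsReal w) {s : ℂ} (hs : 0 < s.re) :
    FA.HeckeCharFE.charFac K 𝔣 S s =
      gamProd (((discr K).natAbs * Ideal.absNorm 𝔣 : ℕ) : ℝ)
        ((nrRealPlaces K : ℤ) - S.card + nrComplexPlaces K) ((S.card : ℤ) + nrComplexPlaces K) s := by
  obtain ⟨h1, h2⟩ := gamma_ne_zero hs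
  rw [gamProd_eq (Nat.cast_pos.2 (Nat.pos_of_ne_zero (mul_ne_zero
    (Int.natAbs_ne_zero.2 (discr_ne_zero K)) fun h => h𝔣 (Ideal.absNorm_eq_zero_iff.1 h)))),
    ofReal_natCast, FA.HeckeCharFE.charFac, ← Nat.cast_sub (FA.HeckeCharFE.card_le_nrRealPlaces hS),
    zpow_add₀ h1, zpow_add₀ h2, zpow_natCast, zpow_natCast, zpow_natCast, zpow_natCast,
    ← Gammaℝ_mul_Gammaℝ_add_one]
  ring

/-- **The completed zeta function.** -/
theorem exists_zeta_completed (F : Type*) [Field F] [NumberField F] :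
    ∃ Λ : ℂ → ℂ, Meromorphic Λ ∧
      (∀ s : ℂ, 1 < s.re → Λ s = gamProd ((discr F).natAbs : ℝ)
        ((nrRealPlaces F : ℤ) + nrComplexPlaces F) (nrComplexPlaces F) s * dedekindZeta F s) ∧
      ∀ s, Λ (1 - s) = Λ s := by
  refine ⟨fun s => FA.HeckeFE.zetaXi F s - FA.HeckeFE.polarConst F / (s * (1 - s)),
    fun x => (FA.HeckeFE.differentiable_zetaXi.analyticAt x).meromorphicAt.fun_sub
      ((MeromorphicAt.const _ x).fun_div
        (analyticAt_id.fun_mul (analyticAt_const.fun_sub analyticAt_id)).meromorphicAt),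
    fun s hs => ?_, fun s => ?_⟩
  · obtain ⟨h1, -⟩ := gamma_ne_zero (one_pos.trans hs)
    show FA.HeckeFE.zetaXi F s - FA.HeckeFE.polarConst F / (s * (1 - s)) = _
    rw [← FA.HeckeFE.zetaXi_half hs, gamProd_eq (Nat.cast_pos.2 (Int.natAbs_pos.2 (discr_ne_zero F))),
      ofReal_natCast, FA.HeckeFE.gamFac, zpow_add₀ h1, zpow_natCast, zpow_natCast, zpow_natCast,
      ← Gammaℝ_mul_Gammaℝ_add_one]
    ring
  · show FA.HeckeFE.zetaXi F (1 - s) - FA.HeckeFE.polarConst F / ((1 - s) * (1 - (1 - s))) = _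
    rw [FA.HeckeFE.zetaXi_one_sub, sub_sub_cancel, mul_comm (1 - s)]

/-- **A nontrivial linear character has an entire completed L-series.** -/
theorem exists_linear_entire (ψ : (L ≃ₐ[K] L) →* ℂˣ) (hψ : ψ ≠ 1) :
    ∃ (Λ Λ' : ℂ → ℂ) (W : ℂ), Differentiable ℂ Λ ∧ Differentiable ℂ Λ' ∧ ‖W‖ = 1 ∧
      (∀ s : ℂ, 1 < s.re → Λ s =
        gamProd (linA ψ : ℝ) (linP ψ) (linM ψ) s * artinL (fun σ => (ψ σ : ℂ)) s) ∧
      (∀ s : ℂ, 1 < s.re → Λ' s =
        gamProd (linA ψ : ℝ) (linP ψ) (linM ψ) s * artinL (fun σ => ((ψ⁻¹) σ : ℂ)) s) ∧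
      ∀ s, Λ (1 - s) = W * Λ' s := by
  obtain ⟨𝔣, g, hS, hp, hnt, hc, h⟩ := exists_hecke_conductor ψ hψ
  have h𝔣 : linCond ψ = 𝔣 := (isCond_linCond ψ).unique hc (linCond_ne_bot ψ) hS.ne_bot
  have hfac : ∀ s : ℂ, 1 < s.re →
      FA.HeckeCharFE.charFac K 𝔣 (linS ψ) s = gamProd (linA ψ : ℝ) (linP ψ) (linM ψ) s :=
    fun s hs => by
      rw [linA, linP, linM, h𝔣, linS]
      exact charFac_eq_gamProd hS.ne_bot hS.real (one_pos.trans hs)
  refine ⟨hS.completedL hp, hS.conj.completedL hp.conj, FA.HeckeCharFE.rootC 𝔣 g (linS ψ),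
    hS.differentiable_completedL hp, hS.conj.differentiable_completedL hp.conj,
    hS.norm_rootC hp hnt, fun s hs => ?_, fun s hs => ?_, hS.completedL_one_sub hp hnt⟩
  · rw [h s hs, ← hfac s hs]
    exact hS.completedL_half hp hnt hs
  · rw [show (fun σ => ((ψ⁻¹) σ : ℂ)) = fun σ => starRingEnd ℂ (ψ σ : ℂ) from
      funext (coe_inv_eq_conj ψ), artinL_conj, h _ (by simpa using hs), ← heckeL_conjChar,
      ← hfac s hs]
    exact hS.conj.completedL_half hp.conj hnt.conj hs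

/-- **The completed L-series of a linear character.** -/
theorem exists_linear_completed (ψ : (L ≃ₐ[K] L) →* ℂˣ) :
    ∃ (Λ Λ' : ℂ → ℂ) (W : ℂ), Meromorphic Λ ∧ Meromorphic Λ' ∧ ‖W‖ = 1 ∧
      (∀ s : ℂ, 1 < s.re → Λ s =
        gamProd (linA ψ : ℝ) (linP ψ) (linM ψ) s * artinL (fun σ => (ψ σ : ℂ)) s) ∧
      (∀ s : ℂ, 1 < s.re → Λ' s =
        gamProd (linA ψ : ℝ) (linP ψ) (linM ψ) s * artinL (fun σ => ((ψ⁻¹) σ : ℂ)) s) ∧
      ∀ s, Λ (1 - s) = W * Λ' s := by
  by_cases hψ : ψ = 1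
  · subst hψ
    obtain ⟨Λ, hm, hh, he⟩ := exists_zeta_completed K
    have hp : ∀ s : ℂ, 1 < s.re → Λ s = gamProd (linA (1 : (L ≃ₐ[K] L) →* ℂˣ) : ℝ)
        (linP (1 : (L ≃ₐ[K] L) →* ℂˣ)) (linM (1 : (L ≃ₐ[K] L) →* ℂˣ)) s *
          artinL (fun _ : L ≃ₐ[K] L => (1 : ℂ)) s := fun s hs => by
      rw [hh s hs, artinL_one hs, linA, linP, linM, linS_one, linCond_one, Ideal.absNorm_top,
        mul_one, Finset.card_empty, Nat.cast_zero, sub_zero, zero_add]
    refine ⟨Λ, Λ, 1, hm, hm, norm_one, fun s hs => ?_, fun s hs => ?_, fun s => by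
      rw [he s, one_mul]⟩
    · simpa using hp s hs
    · simpa using hp s hs
  obtain ⟨Λ, Λ', W, hd, hd', rest⟩ := exists_linear_entire ψ hψ
  exact ⟨Λ, Λ', W, fun x => (hd.analyticAt x).meromorphicAt,
    fun x => (hd'.analyticAt x).meromorphicAt, rest⟩

section induced

variable {M : Type*} [Field M] [NumberField M] [Algebra K M] [Algebra M L] [IsScalarTower K M L]

/-- An induced character at an inverse. -/
theorem inducedFn_inv (ψ : (L ≃ₐ[M] L) →* ℂˣ) (g : L ≃ₐ[K] L) :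
    inducedFn K (fun h => (ψ h : ℂ)) g⁻¹ = inducedFn K (fun h => ((ψ⁻¹) h : ℂ)) g := by
  rw [inducedFn, inducedFn]
  congr 1
  refine sum_congr rfl fun x _ => Fintype.sum_equiv (Equiv.inv _) _ _ fun h => ?_
  rw [Equiv.inv_apply, MonoidHom.inv_apply, map_inv ψ, inv_inv, map_inv (galIncl K M L)]
  refine if_congr ?_ rfl rfl
  rw [inv_eq_iff_eq_inv, show (x * g * x⁻¹)⁻¹ = x * g⁻¹ * x⁻¹ by group]

end induced

/-- **The Brauer decomposition of the character.** -/
theorem exists_brauer_decomp {V : Type*} [AddCommGroup V] [Module ℂ V] [FiniteDimensional ℂ V]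
    (ρ : Representation ℂ (L ≃ₐ[K] L) V) :
    ∃ (n : ℕ) (k : Fin n → ℤ) (M : Fin n → IntermediateField K L)
      (ψ : (i : Fin n) → (L ≃ₐ[M i] L) →* ℂˣ),
      ρ.character = ∑ i, k i • inducedFn K (fun h => (ψ i h : ℂ)) := by
  have h := FA.BrauerInduction.character_mem_brauerSpan ρ
  rw [FA.BrauerInduction.brauerSpan, ← Submodule.span_int_eq_addSubgroupClosure,
    Submodule.mem_toAddSubgroup, Submodule.mem_span_set'] at h
  obtain ⟨n, k, g, hg⟩ := h
  choose H hH φ hφ using fun i => (g i).2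
  refine ⟨n, k, fun i => IntermediateField.fixedField (H i),
    fun i => (φ i).comp (fixedEquiv (H i)).toMonoidHom, ?_⟩
  rw [← hg]
  refine sum_congr rfl fun i _ => ?_
  rw [hφ i, ← inducedFn_fixedField]
  rfl

/-- **The functional equation of an Artin L-series.** -/
theorem exists_completed {V : Type*} [AddCommGroup V] [Module ℂ V] [FiniteDimensional ℂ V]
    (ρ : Representation ℂ (L ≃ₐ[K] L) V) :
    ∃ (A : ℚ) (a b : ℤ) (Λ Λ' : ℂ → ℂ) (W : ℂ), 0 < A ∧ Meromorphic Λ ∧ Meromorphic Λ' ∧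
      ‖W‖ = 1 ∧
      (∀ s : ℂ, 1 < s.re → Λ s = gamProd (A : ℝ) a b s * artinL ρ.character s) ∧
      (∀ s : ℂ, 1 < s.re → Λ' s = gamProd (A : ℝ) a b s * artinL ρ.dual.character s) ∧
      (∀ s, Λ (1 - s) = W * Λ' s) ∧
      a + b = (finrank ℂ V : ℤ) * (finrank ℚ K : ℤ) ∧
      ∀ c : InfinitePlace K → (L ≃ₐ[K] L), (∀ v : InfinitePlace K, IsReal v →
        ∃ φ : L →+* ℂ, φ.comp (algebraMap K L) = v.embedding ∧ ComplexEmbedding.IsConj φ (c v)) →
        ((a - b : ℤ) : ℂ) =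
          ∑ v ∈ univ.filter (fun v : InfinitePlace K => IsReal v), ρ.character (c v) := by
  obtain ⟨n, k, M, ψ, hchar⟩ := exists_brauer_decomp ρ
  have hdual : ρ.dual.character = ∑ i, k i • inducedFn K (fun h => ((ψ i)⁻¹ h : ℂ)) := by
    funext g
    rw [Representation.char_dual, hchar]
    simp only [Finset.sum_apply, Pi.smul_apply, inducedFn_inv]
  choose Λ Λ' W hm hm' hW hh hh' he using fun i => exists_linear_completed (ψ i)
  have hApos : ∀ i ∈ (univ : Finset (Fin n)), (0 : ℝ) < (linA (ψ i) : ℝ) := fun i _ =>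
    Nat.cast_pos.2 (linA_pos _)
  refine ⟨∏ i, (linA (ψ i) : ℚ) ^ k i, ∑ i, k i * linP (ψ i), ∑ i, k i * linM (ψ i),
    fun s => ∏ i, Λ i s ^ k i, fun s => ∏ i, Λ' i s ^ k i, ∏ i, W i ^ k i,
    Finset.prod_pos fun i _ => zpow_pos (Nat.cast_pos.2 (linA_pos _)) _,
    fun x => MeromorphicAt.fun_prod fun i _ => (hm i x).fun_zpow _,
    fun x => MeromorphicAt.fun_prod fun i _ => (hm' i x).fun_zpow _, ?_,
    fun s hs => ?_, fun s hs => ?_, fun s => ?_, ?_, fun c hc => ?_⟩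
  · rw [norm_prod]
    exact Finset.prod_eq_one fun i _ => by rw [norm_zpow, hW, one_zpow]
  · rw [hchar, artinL_sum hs]
    push_cast
    rw [← gamProd_prod univ hApos _ _ _ (one_pos.trans hs), ← Finset.prod_mul_distrib]
    refine prod_congr rfl fun i _ => ?_
    rw [artinL_zsmul, artinL_induced hs (fun g x => by simp), hh i s hs, mul_zpow]
  · rw [hdual, artinL_sum hs]
    push_cast
    rw [← gamProd_prod univ hApos _ _ _ (one_pos.trans hs), ← Finset.prod_mul_distrib]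
    refine prod_congr rfl fun i _ => ?_
    rw [artinL_zsmul, artinL_induced hs (fun g x => by simp), hh' i s hs, mul_zpow]
  · simp only [he, mul_zpow, Finset.prod_mul_distrib]
  · have h1 := congrFun hchar 1
    rw [Representation.char_one, Finset.sum_apply] at h1
    have h2 : ((finrank ℂ V : ℤ) * (finrank ℚ K : ℤ) : ℂ) =
        ∑ i, (k i : ℂ) * (finrank ℚ (M i) : ℂ) := by
      push_cast
      rw [h1, Finset.sum_mul]
      refine sum_congr rfl fun i _ => ?_
      rw [Pi.smul_apply, zsmul_eq_mul, mul_assoc, inducedFn_one]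
    rw [← Finset.sum_add_distrib, ← Int.cast_inj (α := ℂ)]
    push_cast at h2 ⊢
    rw [h2]
    refine sum_congr rfl fun i _ => ?_
    have h3 := congrArg (fun z : ℤ => (z : ℂ)) (linP_add_linM (ψ i))
    push_cast at h3
    rw [← mul_add, h3]
  · rw [hchar]
    simp only [Finset.sum_apply, Pi.smul_apply, zsmul_eq_mul, Pi.mul_apply, Pi.intCast_apply]
    rw [Finset.sum_comm, ← Finset.sum_sub_distrib, Int.cast_sum]
    refine sum_congr rfl fun i _ => ?_
    rw [← Finset.mul_sum, sum_inducedFn_isConj (ψ i) c hc, sum_archVal, ← mul_sub, Int.cast_mul,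
      linP_sub_linM]
    rfl

end FA.ArtinFE

end
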