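import Fermat.Agent.ArtinFE.Completed
import Fermat.Agent.ArtinL.Formulas
import Fermat.Agent.CharacterTheory.Degree
import Mathlib.GroupTheory.FiniteAbelian.Duality

/-!
# The conductor-discriminant formula

For an abelian extension the zeta function is the product of the L-series of the linear characters;
as completing factors are determined by functional equations, so is the discriminant the product of
the factors `|d| N 𝔣` of the characters.
-/

set_option autoImplicit false
set_option linter.unusedSectionVars false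
set_option linter.style.haveILetI false

noncomputable section

open NumberField NumberField.InfinitePlace Module Finset Complex
open FA.ArtinL (artinL)
open FA.CharacterTheory (irr)
open scoped Classical

namespace FA.ArtinFE

variable {K L : Type*} [Field K] [NumberField K] [Field L] [NumberField L] [Algebra K L]
  [IsGalois K L] (hcomm : ∀ g h : L ≃ₐ[K] L, g * h = h * g)

include hcomm in
/-- The number of linear characters. -/
theorem card_linear : Nat.card ((L ≃ₐ[K] L) →* ℂˣ) = finrank K L := by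
  let _ : CommGroup (L ≃ₐ[K] L) :=
    { (inferInstance : Group (L ≃ₐ[K] L)) with mul_comm := hcomm }
  rw [CommGroup.card_monoidHom_of_hasEnoughRootsOfUnity, IsGalois.card_aut_eq_finrank]

include hcomm in
theorem finite_linear : Finite ((L ≃ₐ[K] L) →* ℂˣ) :=
  Nat.finite_of_card_ne_zero (by rw [card_linear hcomm]; exact Module.finrank_pos.ne')

include hcomm in
/-- The zeta function of an abelian extension. -/
theorem dedekindZeta_eq_prod_linear [Fintype ((L ≃ₐ[K] L) →* ℂˣ)] {s : ℂ} (hs : 1 < s.re) :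
    dedekindZeta L s = ∏ ψ : (L ≃ₐ[K] L) →* ℂˣ, artinL (fun σ => (ψ σ : ℂ)) s := by
  set T : ((L ≃ₐ[K] L) →* ℂˣ) → (L ≃ₐ[K] L) → ℂ := fun ψ σ => (ψ σ : ℂ)
  have hT : Function.Injective T := fun a b h =>
    MonoidHom.ext fun σ => Units.ext (congrFun h σ)
  have hirr : irr (L ≃ₐ[K] L) = univ.image T := by
    refine Finset.eq_of_subset_of_card_le (fun χ hχ => ?_) ?_
    · obtain ⟨ψ, hψ⟩ := FA.CharacterTheory.exists_hom_of_comm hcomm hχ
      exact mem_image.2 ⟨ψ, mem_univ _, hψ⟩
    · rw [card_image_of_injective _ hT, card_univ, ← Nat.card_eq_fintype_card, card_linear hcomm,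
        FA.CharacterTheory.card_irr, ← IsGalois.card_aut_eq_finrank]
      let _ : CommGroup (L ≃ₐ[K] L) :=
        { (inferInstance : Group (L ≃ₐ[K] L)) with mul_comm := hcomm }
      exact (Nat.card_congr ConjClasses.mkEquiv).le
  rw [FA.ArtinL.dedekindZeta_eq_prod (K := K) hs,
    Finset.prod_congr rfl fun χ hχ => by
      rw [FA.CharacterTheory.irr_one_of_comm hcomm hχ, Complex.cpow_one],
    hirr, Finset.prod_image fun a _ b _ h => hT h]

include hcomm in
/-- **The conductor-discriminant formula.** -/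
theorem discr_eq_prod_linA [Fintype ((L ≃ₐ[K] L) →* ℂˣ)] :
    (discr L).natAbs = ∏ ψ : (L ≃ₐ[K] L) →* ℂˣ, linA ψ := by
  choose Λ Λ' W hm hm' hW hh hh' he using
    fun ψ : (L ≃ₐ[K] L) →* ℂˣ => exists_linear_completed ψ
  obtain ⟨Ξ, hΞm, hΞ, hΞe⟩ := exists_zeta_completed L
  have hApos : ∀ ψ ∈ (univ : Finset ((L ≃ₐ[K] L) →* ℂˣ)), (0 : ℝ) < (linA ψ : ℝ) := fun ψ _ =>
    Nat.cast_pos.2 (linA_pos ψ)
  have hg : ∀ s : ℂ, 1 < s.re → ∏ ψ : (L ≃ₐ[K] L) →* ℂˣ, gamProd (linA ψ : ℝ) (linP ψ) (linM ψ) s =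
      gamProd (∏ ψ, (linA ψ : ℝ)) (∑ ψ, linP ψ) (∑ ψ, linM ψ) s := fun s hs => by
    simpa using gamProd_prod univ hApos linP linM (fun _ => 1) (one_pos.trans hs)
  have h := params_unique (Finset.prod_pos hApos) (Nat.cast_pos.2 (Int.natAbs_pos.2 (discr_ne_zero L)))
    (F := fun s => dedekindZeta L s) (F' := fun s => dedekindZeta L s)
    (Λ₁ := fun s => ∏ ψ, Λ ψ s) (Λ₁' := fun s => ∏ ψ, Λ' ψ s) (Λ₂ := Ξ) (Λ₂' := Ξ)
    (W₁ := ∏ ψ, W ψ) (W₂ := 1)
    (Finset.prod_ne_zero_iff.2 fun ψ _ h0 => by simpa [h0] using hW ψ) one_ne_zero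
    (fun s hs => by
      rw [dedekindZeta_eq_prod_linear hcomm hs]
      exact Finset.prod_ne_zero_iff.2 fun ψ _ => FA.ArtinL.artinL_ne_zero _ _)
    (fun x => MeromorphicAt.fun_prod fun ψ _ => hm ψ x)
    (fun x => MeromorphicAt.fun_prod fun ψ _ => hm' ψ x) hΞm hΞm
    (fun s hs => by
      rw [← hg s hs, dedekindZeta_eq_prod_linear hcomm hs, ← Finset.prod_mul_distrib]
      exact Finset.prod_congr rfl fun ψ _ => hh ψ s hs)
    (fun s hs => by
      rw [← hg s hs, dedekindZeta_eq_prod_linear hcomm hs,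
        ← Equiv.prod_comp (Equiv.inv ((L ≃ₐ[K] L) →* ℂˣ)) fun ψ => artinL (fun σ => (ψ σ : ℂ)) s,
        ← Finset.prod_mul_distrib]
      exact Finset.prod_congr rfl fun ψ _ => hh' ψ s hs)
    hΞ hΞ (fun s => by simp only [he, Finset.prod_mul_distrib])
    fun s => by rw [hΞe s, one_mul]
  exact_mod_cast h.1.symm

include hcomm in
/-- **The conductor-discriminant formula**, in terms of the base field. -/
theorem discr_eq [Fintype ((L ≃ₐ[K] L) →* ℂˣ)] :
    (discr L).natAbs = (discr K).natAbs ^ finrank K L *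
      ∏ ψ : (L ≃ₐ[K] L) →* ℂˣ, Ideal.absNorm (linCond ψ) := by
  rw [discr_eq_prod_linA hcomm]
  simp only [linA, Finset.prod_mul_distrib, Finset.prod_const, card_univ,
    ← Nat.card_eq_fintype_card, card_linear hcomm]

end FA.ArtinFE

end
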