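import Fermat.Agent.ArtinFE.Linear
import Fermat.Agent.ArtinL.Induction

/-!
# Complex conjugations and induction

The value of a linear character at the conjugation of a real place tells whether the place ramifies
in the field cut out by the character; summing over the real places, the values of an induced
character at the conjugations give the difference between unramified and ramified real places.
-/

set_option autoImplicit false
set_option linter.unusedSectionVars false
set_option linter.style.haveILetI false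

noncomputable section

open NumberField NumberField.InfinitePlace Module Finset
open FA.ArtinL (inducedFn galIncl)
open scoped Classical

namespace FA.ArtinFE

section base

variable {K L : Type*} [Field K] [NumberField K] [Field L] [NumberField L] [Algebra K L]
  [IsGalois K L]

/-- An embedding real on the base has a conjugation. -/
theorem exists_isConj {φ : L →+* ℂ} (hr : ComplexEmbedding.IsReal (φ.comp (algebraMap K L))) :
    ∃ σ : L ≃ₐ[K] L, ComplexEmbedding.IsConj φ σ := by
  obtain ⟨σ, hσ⟩ := NumberField.ComplexEmbedding.exists_comp_symm_eq_of_comp_eq φ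
    (ComplexEmbedding.conjugate φ) (RingHom.ext fun x => (RingHom.congr_fun hr x).symm)
  exact ⟨σ.symm, hσ.symm⟩

/-- **The value at a conjugation.** -/
theorem val_of_isConj (ψ : (L ≃ₐ[K] L) →* ℂˣ) {φ : L →+* ℂ} {c : L ≃ₐ[K] L}
    (hc : ComplexEmbedding.IsConj φ c) {w : InfinitePlace K}
    (hw : φ.comp (algebraMap K L) = w.embedding) :
    (ψ c : ℂ) = if w ∈ realRam K (IntermediateField.fixedField ψ.ker) then -1 else 1 := by
  set M := IntermediateField.fixedField ψ.ker
  set φ' := φ.comp (algebraMap M L)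
  have hc' : ComplexEmbedding.IsConj φ' (AlgEquiv.restrictNormalHom M c) := RingHom.ext fun x => by
    show star (φ (algebraMap M L x)) = φ (algebraMap M L (AlgEquiv.restrictNormalHom M c x))
    rw [show algebraMap M L (AlgEquiv.restrictNormalHom M c x) = c (algebraMap M L x) from
      AlgEquiv.restrictNormal_commutes c M x, hc.eq]
  have hw' : (InfinitePlace.mk φ').comap (algebraMap K M) = w := by
    rw [comap_mk, RingHom.comp_assoc, ← IsScalarTower.algebraMap_eq, hw, mk_embedding]
  have hker : (AlgEquiv.restrictNormalHom M : (L ≃ₐ[K] L) →* (M ≃ₐ[K] M)).ker = ψ.ker :=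
    (IntermediateField.restrictNormalHom_ker M).trans
      (IntermediateField.fixingSubgroup_fixedField ψ.ker)
  have hiff : w.IsUnramifiedIn M ↔ ψ c = 1 := by
    rw [← hw', isUnramifiedIn_comap, hc'.isUnramified_mk_iff, ← MonoidHom.mem_ker, hker,
      MonoidHom.mem_ker]
  have h2 : (ψ c : ℂ) * (ψ c : ℂ) = 1 := by
    rw [← Units.val_mul, ← map_mul, show c * c = 1 from
      AlgEquiv.ext fun x => ComplexEmbedding.isConj_apply_apply hc x, map_one, Units.val_one]
  by_cases h : w ∈ realRam K M
  · rw [if_pos h]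
    refine (mul_self_eq_one_iff.1 h2).resolve_left fun h1 => ?_
    exact mem_realRam.1 h (hiff.2 (Units.ext h1))
  · rw [if_neg h, hiff.1 (not_not.1 fun hn => h (mem_realRam.2 hn)), Units.val_one]

/-- Summing over the group is summing over the embeddings over one of the base. -/
theorem sum_comp_galois (φ₀ : L →+* ℂ) (F : (L →+* ℂ) → ℂ) :
    ∑ x : L ≃ₐ[K] L, F (φ₀.comp (x : L →+* L)) =
      ∑ φ ∈ univ.filter (fun φ : L →+* ℂ =>
        φ.comp (algebraMap K L) = φ₀.comp (algebraMap K L)), F φ := by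
  refine Finset.sum_bij (fun x _ => φ₀.comp (x : L →+* L)) (fun x _ => ?_) (fun a _ b _ h => ?_)
    (fun φ hφ => ?_) fun x _ => rfl
  · refine mem_filter.2 ⟨mem_univ _, RingHom.ext fun y => ?_⟩
    show φ₀ (x (algebraMap K L y)) = φ₀ (algebraMap K L y)
    rw [x.commutes]
  · exact AlgEquiv.ext fun y => φ₀.injective (RingHom.congr_fun h y)
  · obtain ⟨σ, hσ⟩ :=
      NumberField.ComplexEmbedding.exists_comp_symm_eq_of_comp_eq φ₀ φ (mem_filter.1 hφ).2.symm
    exact ⟨σ.symm, mem_univ _, hσ⟩

/-- The number of extensions of an embedding. -/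
theorem card_extensions (σ : K →+* ℂ) :
    #(univ.filter fun φ : L →+* ℂ => φ.comp (algebraMap K L) = σ) = Nat.card (L ≃ₐ[K] L) := by
  have h := sum_comp_galois (K := K) (ComplexEmbedding.lift L σ) fun _ => (1 : ℂ)
  rw [ComplexEmbedding.lift_comp_algebraMap, sum_const, sum_const, nsmul_one, nsmul_one,
    Nat.cast_inj, card_univ] at h
  rw [← h, Nat.card_eq_fintype_card]

end base

variable {K M L : Type*} [Field K] [NumberField K] [Field M] [NumberField M] [Field L]
  [NumberField L] [Algebra K L] [Algebra K M] [Algebra M L] [IsScalarTower K M L] [IsGalois K L]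
  [IsGalois M L]

/-- `± 1` at the real embeddings as they are unramified or not, `0` at the others. -/
def archVal (ψ : (L ≃ₐ[M] L) →* ℂˣ) (σ : M →+* ℂ) : ℂ :=
  if ComplexEmbedding.IsReal σ then
    (if InfinitePlace.mk σ ∈ realRam M (IntermediateField.fixedField ψ.ker) then -1 else 1)
  else 0

theorem galIncl_injective : Function.Injective (galIncl K M L) := fun _ _ e =>
  AlgEquiv.ext fun y => DFunLike.congr_fun e y

/-- **An induced character at a conjugation.** -/
theorem inducedFn_isConj (ψ : (L ≃ₐ[M] L) →* ℂˣ) {φ₀ : L →+* ℂ} {c₀ : L ≃ₐ[K] L}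
    (hc : ComplexEmbedding.IsConj φ₀ c₀) :
    inducedFn K (fun h => (ψ h : ℂ)) c₀ =
      ∑ σ ∈ univ.filter (fun σ : M →+* ℂ =>
        σ.comp (algebraMap K M) = φ₀.comp (algebraMap K L)), archVal ψ σ := by
  set F : (L →+* ℂ) → ℂ := fun φ => archVal ψ (φ.comp (algebraMap M L))
  have hx : ∀ x : L ≃ₐ[K] L, (∑ h : L ≃ₐ[M] L,
      if galIncl K M L h = x * c₀ * x⁻¹ then (ψ h : ℂ) else 0) =
        F (φ₀.comp ((x⁻¹ : L ≃ₐ[K] L) : L →+* L)) := fun x => by
    set φ := φ₀.comp ((x⁻¹ : L ≃ₐ[K] L) : L →+* L)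
    have hcx : ComplexEmbedding.IsConj φ (x * c₀ * x⁻¹) := by
      have := hc.comp x⁻¹
      rwa [inv_inv] at this
    have hiff : ∀ h : L ≃ₐ[M] L,
        galIncl K M L h = x * c₀ * x⁻¹ ↔ ComplexEmbedding.IsConj φ h := fun h =>
      ⟨fun e => RingHom.ext fun y => (RingHom.congr_fun hcx y).trans
          (congrArg φ (DFunLike.congr_fun e y).symm),
        fun e => (hcx.ext (σ₂ := galIncl K M L h) (RingHom.ext fun y =>
          RingHom.congr_fun e y)).symm⟩
    simp only [F, archVal]
    by_cases hr : ComplexEmbedding.IsReal (φ.comp (algebraMap M L))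
    · obtain ⟨d, hd⟩ := exists_isConj (K := M) hr
      rw [sum_eq_single d (fun h _ hne => if_neg fun e => hne ((hiff h).1 e |>.ext hd)) (by simp),
        if_pos ((hiff d).2 hd), if_pos hr,
        val_of_isConj ψ hd (embedding_mk_eq_of_isReal hr).symm]
    · rw [if_neg hr]
      exact sum_eq_zero fun h _ => if_neg fun e => hr ((hiff h).1 e).isReal_comp
  rw [inducedFn, sum_congr rfl fun x _ => hx x,
    Fintype.sum_equiv (Equiv.inv (L ≃ₐ[K] L)) (fun x => F (φ₀.comp ((x⁻¹ : L ≃ₐ[K] L) : L →+* L)))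
      (fun x => F (φ₀.comp (x : L →+* L))) (fun x => rfl),
    sum_comp_galois φ₀ F, ← sum_fiberwise_of_maps_to (g := fun φ : L →+* ℂ => φ.comp (algebraMap M L))
      (t := univ.filter fun σ : M →+* ℂ => σ.comp (algebraMap K M) = φ₀.comp (algebraMap K L))
      (fun φ hφ => mem_filter.2 ⟨mem_univ _, by
        show (φ.comp (algebraMap M L)).comp (algebraMap K M) = _
        rw [RingHom.comp_assoc, ← IsScalarTower.algebraMap_eq]
        exact (mem_filter.1 hφ).2⟩), mul_sum]
  refine sum_congr rfl fun σ hσ => ?_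
  have hset : (univ.filter fun φ : L →+* ℂ =>
      φ.comp (algebraMap K L) = φ₀.comp (algebraMap K L)).filter
        (fun φ => φ.comp (algebraMap M L) = σ) =
      univ.filter fun φ : L →+* ℂ => φ.comp (algebraMap M L) = σ := by
    ext φ
    simp only [mem_filter, mem_univ, true_and, and_iff_right_iff_imp]
    rintro rfl
    rw [← (mem_filter.1 hσ).2, RingHom.comp_assoc, ← IsScalarTower.algebraMap_eq]
  rw [hset, sum_congr rfl (fun φ hφ => show F φ = archVal ψ σ by
    simp only [F, (mem_filter.1 hφ).2]), sum_const, card_extensions, nsmul_eq_mul,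
    inv_mul_cancel_left₀ (Nat.cast_ne_zero.2 Nat.card_pos.ne')]

/-- The sum over the real embeddings. -/
theorem sum_archVal (ψ : (L ≃ₐ[M] L) →* ℂˣ) :
    ∑ σ : M →+* ℂ, archVal ψ σ = (nrRealPlaces M : ℂ) -
      2 * (realRam M (IntermediateField.fixedField ψ.ker)).card := by
  set R := realRam M (IntermediateField.fixedField ψ.ker)
  have h1 : ∑ σ : M →+* ℂ, archVal ψ σ =
      ∑ w ∈ univ.filter (fun w : InfinitePlace M => IsReal w), if w ∈ R then (-1 : ℂ) else 1 := by
    rw [show (fun σ : M →+* ℂ => archVal ψ σ) = fun σ => if ComplexEmbedding.IsReal σ then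
      (if InfinitePlace.mk σ ∈ R then (-1 : ℂ) else 1) else 0 from rfl, ← sum_filter]
    refine sum_nbij' InfinitePlace.mk InfinitePlace.embedding (fun σ hσ => ?_) (fun w hw => ?_)
      (fun σ hσ => embedding_mk_eq_of_isReal (mem_filter.1 hσ).2) (fun w _ => mk_embedding w)
      fun σ _ => rfl
    · exact mem_filter.2 ⟨mem_univ _, isReal_mk_iff.2 (mem_filter.1 hσ).2⟩
    · exact mem_filter.2 ⟨mem_univ _, isReal_iff.1 (mem_filter.1 hw).2⟩
  have hsub : R ⊆ univ.filter fun w : InfinitePlace M => IsReal w := fun w hw =>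
    mem_filter.2 ⟨mem_univ _, isReal_of_mem_realRam hw⟩
  have hc : (nrRealPlaces M : ℂ) = ∑ w ∈ univ.filter (fun w : InfinitePlace M => IsReal w), (1 : ℂ) := by
    rw [sum_const, nsmul_one, nrRealPlaces, Fintype.card_subtype]
  rw [h1, hc, eq_sub_iff_add_eq, mul_comm, ← nsmul_eq_mul, ← sum_const (2 : ℂ),
    sum_congr rfl (fun w hw => (if_pos hw).symm :
      ∀ w ∈ R, (2 : ℂ) = if w ∈ R then (2 : ℂ) else 0),
    sum_subset hsub (fun w _ hw => if_neg hw), ← sum_add_distrib]
  exact sum_congr rfl fun w _ => by split_ifs <;> norm_num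

/-- **The sum over the real places of an induced character.** -/
theorem sum_inducedFn_isConj (ψ : (L ≃ₐ[M] L) →* ℂˣ) (c : InfinitePlace K → (L ≃ₐ[K] L))
    (hc : ∀ v : InfinitePlace K, IsReal v →
      ∃ φ : L →+* ℂ, φ.comp (algebraMap K L) = v.embedding ∧ ComplexEmbedding.IsConj φ (c v)) :
    ∑ v ∈ univ.filter (fun v : InfinitePlace K => IsReal v),
        inducedFn K (fun h => (ψ h : ℂ)) (c v) =
      ∑ σ : M →+* ℂ, archVal ψ σ := by
  rw [← sum_filter_of_ne (p := fun σ : M →+* ℂ => ComplexEmbedding.IsReal (σ.comp (algebraMap K M)))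
    fun σ _ h => by
      by_contra hr
      exact h (if_neg fun hσ => hr (hσ.comp _)),
    ← sum_fiberwise_of_maps_to
      (g := fun σ : M →+* ℂ => InfinitePlace.mk (σ.comp (algebraMap K M)))
      (t := univ.filter fun v : InfinitePlace K => IsReal v)
      fun σ hσ => mem_filter.2 ⟨mem_univ _, isReal_mk_iff.2 (mem_filter.1 hσ).2⟩]
  refine sum_congr rfl fun v hv => ?_
  obtain ⟨φ, hφ, hφc⟩ := hc v (mem_filter.1 hv).2
  rw [inducedFn_isConj ψ hφc, hφ]
  refine sum_congr ?_ fun σ _ => rfl
  ext σ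
  simp only [mem_filter, mem_univ, true_and]
  constructor
  · exact fun h => ⟨h ▸ isReal_iff.1 (mem_filter.1 hv).2, by rw [h, mk_embedding]⟩
  · rintro ⟨hr, rfl⟩
    exact (embedding_mk_eq_of_isReal hr).symm

/-- An induced character at `1`. -/
theorem inducedFn_one (ψ : (L ≃ₐ[M] L) →* ℂˣ) :
    inducedFn K (fun h => (ψ h : ℂ)) 1 * (finrank ℚ K : ℂ) = (finrank ℚ M : ℂ) := by
  have hx : ∀ x : L ≃ₐ[K] L, (∑ h : L ≃ₐ[M] L,
      if galIncl K M L h = x * 1 * x⁻¹ then (ψ h : ℂ) else 0) = 1 := fun x => by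
    rw [mul_one, mul_inv_cancel, sum_eq_single 1 (fun h _ hne => if_neg fun e => hne
      (galIncl_injective (e.trans (map_one _).symm))) (by simp), if_pos (map_one _), map_one,
      Units.val_one]
  have h := (Module.finrank_mul_finrank ℚ K L).trans (Module.finrank_mul_finrank ℚ M L).symm
  rw [← IsGalois.card_aut_eq_finrank K L, ← IsGalois.card_aut_eq_finrank M L] at h
  rw [inducedFn, sum_congr rfl fun x _ => hx x, sum_const, card_univ, nsmul_one,
    ← Nat.card_eq_fintype_card, mul_assoc, inv_mul_eq_iff_eq_mul₀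
      (Nat.cast_ne_zero.2 Nat.card_pos.ne'), ← Nat.cast_mul, ← Nat.cast_mul, Nat.cast_inj,
    mul_comm (Nat.card (L ≃ₐ[K] L)), h, mul_comm]

end FA.ArtinFE

end
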