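import Fermat.Agent.HeckeCharFE.Continuation
import Fermat.Agent.HeckeCharFE.Primitive
import Fermat.Agent.ArtinReciprocity.HeckeComparison
import Fermat.Agent.ClassFieldTheory.Conductor
import Fermat.Agent.ExistenceTheorem.SignedReciprocity

/-!
# The conductor and the signs of a linear character

The L-series of a nontrivial linear character of a Galois extension is that of a primitive character
of finite order whose modulus is the conductor of the field cut out by the character and whose odd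
places are the real places ramified in that field.
-/

set_option autoImplicit false
set_option linter.unusedSectionVars false
set_option linter.style.haveILetI false

noncomputable section

open NumberField NumberField.InfinitePlace IsDedekindDomain Finset
open FA.Hecke (IsRayChar IsNontrivial heckeL logF fPow coprimeIdeals RayClassGroup rayClass
  rayCharFn rayCharFn_apply isRayChar_rayCharFn rayClass_eq_iff isRayElt_one IsRayElt)
open FA.Ext (primeIdeal)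
open FA.RayFields (IsModulus)
open FA.HeckeCharFE (HasSigns IsPrimitiveChar sgnS rv rv_eq_embedding)
open scoped Pointwise nonZeroDivisors Classical

namespace FA.ArtinFE

open FA.ArtinRec

variable {K : Type*} [Field K] [NumberField K]

/-- `𝔣` divides exactly the moduli. -/
def IsCond (E : Type*) [Field E] [NumberField E] [Algebra K E] [IsGalois K E]
    (𝔣 : Ideal (𝓞 K)) : Prop :=
  ∀ 𝔪 : Ideal (𝓞 K), 𝔪 ≠ ⊥ → (IsModulus E 𝔪 ↔ 𝔣 ∣ 𝔪)

theorem IsCond.unique {E : Type*} [Field E] [NumberField E] [Algebra K E] [IsGalois K E]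
    {𝔣 𝔣' : Ideal (𝓞 K)} (h : IsCond E 𝔣) (h' : IsCond E 𝔣') (h0 : 𝔣 ≠ ⊥) (h0' : 𝔣' ≠ ⊥) :
    𝔣 = 𝔣' :=
  le_antisymm (Ideal.le_of_dvd ((h' 𝔣 h0).1 ((h 𝔣 h0).2 dvd_rfl)))
    (Ideal.le_of_dvd ((h 𝔣' h0').1 ((h' 𝔣' h0').2 dvd_rfl)))

variable (K) in
/-- The real places that ramify. -/
def realRam (E : Type*) [Field E] [NumberField E] [Algebra K E] : Finset (InfinitePlace K) :=
  Finset.univ.filter fun w => ¬ w.IsUnramifiedIn E

theorem mem_realRam {E : Type*} [Field E] [NumberField E] [Algebra K E] {w : InfinitePlace K} :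
    w ∈ realRam K E ↔ ¬ w.IsUnramifiedIn E := by
  simp [realRam]

theorem isReal_of_mem_realRam {E : Type*} [Field E] [NumberField E] [Algebra K E]
    {w : InfinitePlace K} (h : w ∈ realRam K E) : IsReal w := by
  have h1 := mem_realRam.1 h
  simp only [IsUnramifiedIn, not_forall] at h1
  obtain ⟨v, hv, hv'⟩ := h1
  exact hv ▸ (not_isUnramified_iff.1 hv').2

/-- Unramified places stay so in subextensions. -/
theorem isUnramifiedIn_of_algHom {E L : Type*} [Field E] [NumberField E] [Field L] [NumberField L]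
    [Algebra K E] [Algebra K L] (j : E →ₐ[K] L) {w : InfinitePlace K}
    (h : w.IsUnramifiedIn L) : w.IsUnramifiedIn E := by
  letI : Algebra E L := j.toRingHom.toAlgebra
  haveI : IsScalarTower K E L := IsScalarTower.of_algebraMap_eq fun x => (j.commutes x).symm
  intro u hu
  obtain ⟨z, rfl⟩ := InfinitePlace.comap_surjective (K := L) u
  refine (h z ?_).comap E
  rw [← hu, IsScalarTower.algebraMap_eq K E L, comap_comp]

/-- Coprimality only depends on the support. -/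
theorem sup_eq_top_of_support {I 𝔣 𝔐 : Ideal (𝓞 K)} (hI : I ⊔ 𝔣 = ⊤) (h𝔐 : 𝔐 ≠ ⊥)
    (h : ∀ v : HeightOneSpectrum (𝓞 K), v.asIdeal ∣ 𝔐 → v.asIdeal ∣ 𝔣) : I ⊔ 𝔐 = ⊤ := by
  by_contra hne
  obtain ⟨m, hm, hle⟩ := Ideal.exists_le_maximal _ hne
  let v : HeightOneSpectrum (𝓞 K) :=
    ⟨m, hm.isPrime, fun h0 => h𝔐 (le_bot_iff.1 (h0 ▸ le_sup_right.trans hle))⟩
  refine hm.ne_top (top_le_iff.1 (hI ▸ sup_le (le_sup_left.trans hle) ?_))
  exact Ideal.le_of_dvd (h v (Ideal.dvd_iff_le.2 (le_sup_right.trans hle)))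

section faithful

variable {M : Type*} [Field M] [NumberField M] [Algebra K M] [IsGalois K M]
  [IsMulCommutative (M ≃ₐ[K] M)] (ψ : (M ≃ₐ[K] M) →* ℂˣ)

/-- A ray class character with the support and values of `ψ` has its L-series. -/
theorem artinL_eq_heckeL (hψ : Function.Injective ψ) {𝔣 : Ideal (𝓞 K)} {g : Ideal (𝓞 K) →* ℂ}
    (hg : IsRayChar 𝔣 g) (hsupp : ∀ v : HeightOneSpectrum (𝓞 K), v.asIdeal ∣ 𝔣 ↔ IsRam M v)
    (hval : ∀ v : HeightOneSpectrum (𝓞 K), ¬ IsRam M v → g v.asIdeal = (ψ (artinAt M v) : ℂ))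
    {s : ℂ} (hs : 1 < s.re) :
    FA.ArtinL.artinL (fun σ => (ψ σ : ℂ)) s = heckeL g s := by
  rw [← hg.exp_logF hs, FA.ArtinL.artinL, FA.ArtinL.artinLog,
    (FA.ArtinL.summable_term hs _).tsum_prod, logF]
  congr 1
  refine tsum_congr fun v => ?_
  by_cases hv : IsRam M v
  · have hc : ¬ v.asIdeal ⊔ 𝔣 = ⊤ := fun h =>
      (sup_eq_top_iff_not_le v 𝔣).1 h (Ideal.le_of_dvd ((hsupp v).2 hv))
    rw [fPow, hg.eq_zero_of_not v.ne_bot hc, zero_mul, sub_zero, Complex.log_one, neg_zero]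
    simp [FA.ArtinL.term, coef_of_isRam ψ hψ hv]
  · have hlt : ‖fPow g s v‖ < 1 :=
      lt_of_le_of_lt (hg.norm_fPow_le_half hs.le v) (by norm_num)
    rw [← (Complex.hasSum_taylorSeries_neg_log' hlt).tsum_eq]
    refine tsum_congr fun k => ?_
    rw [FA.ArtinL.term, coef_of_not_isRam ψ hv, ← hval v hv, ← mul_pow]
    rfl

/-- **A faithful linear character: conductor, signs, support and values.** -/
theorem exists_hecke_char_faithful (hψ : Function.Injective ψ) (hne : ψ ≠ 1) :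
    ∃ (𝔣 : Ideal (𝓞 K)) (g : Ideal (𝓞 K) →* ℂ), HasSigns 𝔣 g (realRam K M) ∧
      IsPrimitiveChar 𝔣 g ∧ IsNontrivial g ∧ IsCond M 𝔣 ∧
      (∀ v : HeightOneSpectrum (𝓞 K), v.asIdeal ∣ 𝔣 ↔ IsRam M v) ∧
      ∀ v : HeightOneSpectrum (𝓞 K), ¬ IsRam M v → g v.asIdeal = (ψ (artinAt M v) : ℂ) := by
  obtain ⟨𝔪₀, h𝔪₀, hiff, ω₀, -, -, hω₀⟩ := exists_artinRayHom (K := K) (L := M)
  obtain ⟨𝔫, h𝔫, hdvd, hsig⟩ := exists_signed_modulus K M
  set 𝔐 := 𝔪₀ * 𝔫
  have h𝔐 : 𝔐 ≠ ⊥ := mul_ne_zero h𝔪₀ h𝔫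
  have hle₁ : 𝔐 ≤ 𝔪₀ := Ideal.mul_le_left
  have hle₂ : 𝔐 ≤ 𝔫 := Ideal.mul_le_right
  have hsupp : ∀ v : HeightOneSpectrum (𝓞 K), v.asIdeal ∣ 𝔐 → IsRam M v := fun v h =>
    (v.prime.dvd_or_dvd h).elim (hiff v).1 (hdvd v)
  set f := rayCharFn h𝔐 (ψ.comp (ω₀.comp (rayMap h𝔐 h𝔪₀ hle₁))) with hf_def
  have hray : IsRayChar 𝔐 f := isRayChar_rayCharFn h𝔐 _
  have hf : ∀ I : coprimeIdeals 𝔐, f I.1.1 = (ψ (artinHom M I.1) : ℂ) := fun I => by
    rw [hf_def, rayCharFn_apply, MonoidHom.comp_apply, MonoidHom.comp_apply, rayMap_apply, hω₀]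
  obtain ⟨𝔣, g, hle, hg, hprim, -, hgf⟩ := FA.HeckeCharFE.exists_primitive hray
  have h𝔣 : 𝔣 ≠ ⊥ := hg.ne_bot
  have hgv : ∀ (v : HeightOneSpectrum (𝓞 K)), v.asIdeal ⊔ 𝔐 = ⊤ →
      g v.asIdeal = (ψ (artinAt M v) : ℂ) := fun v hv => by
    rw [hgf _ v.ne_bot hv, ← artinHom_prime (L := M) v]
    exact hf ⟨primeIdeal v, hv⟩
  obtain ⟨S, hS⟩ := FA.HeckeCharFE.exists_hasSigns hg
  obtain ⟨χ, hχ⟩ := FA.HeckeCharFE.exists_rayClassHom hg
  have hsemi : semiClasses h𝔣 (↑S : Set (InfinitePlace K)) ≤ χ.ker := by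
    rw [semiClasses, Subgroup.closure_le]
    rintro _ ⟨x, hx, rfl⟩
    refine Units.ext ?_
    rw [hχ, Units.val_one]
    show g (Ideal.span {x}) = 1
    rw [hS.sgn x hx.1 hx.2.1, sgnS]
    exact Finset.prod_eq_one fun w hw => by
      rw [rv_eq_embedding (hS.real w hw), Real.sign_of_pos (hx.2.2 w hw _), Complex.ofReal_one]
  obtain ⟨L₁, _, _, _, _, _, hL₁⟩ := exists_classField h𝔣 (↑S : Set (InfinitePlace K)) χ.ker hsemi
  -- the field cut out by the character lies in the class field of the primitive one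
  obtain ⟨j⟩ : Nonempty (M →ₐ[K] L₁) :=
    exists_algHom_of_split (Ideal.finite_factors h𝔐) fun v hv h1 => by
      have hv' : v.asIdeal ⊔ 𝔐 = ⊤ :=
        (sup_eq_top_iff_not_le v 𝔐).2 fun h => hv (Ideal.dvd_iff_le.2 h)
      have hv'' : v.asIdeal ⊔ 𝔣 = ⊤ :=
        top_le_iff.1 (hv'.symm.le.trans (sup_le_sup_left hle _))
      have h2 : χ (rayClass h𝔣 ⟨primeIdeal v, hv''⟩) = 1 := (hL₁.artinAt_eq_one_iff v hv'').1 h1
      have h3 := (hχ ⟨primeIdeal v, hv''⟩).symm.trans (congrArg Units.val h2)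
      refine hψ ((Units.ext ?_).trans (map_one ψ).symm)
      rw [← hgv v hv']
      exact h3
  have hmod : IsModulus M 𝔣 := (FA.RayFields.isModulus_of_isClassField hL₁).of_algHom j
  have hsupp' : ∀ v : HeightOneSpectrum (𝓞 K), v.asIdeal ∣ 𝔣 ↔ IsRam M v := fun v =>
    ⟨fun h => hsupp v (h.trans (Ideal.dvd_iff_le.2 hle)), hmod.dvd_of_isRam⟩
  -- the signs
  have hS' : S = realRam K M := by
    ext w
    refine ⟨fun hw => mem_realRam.2 fun hun => ?_, fun hw => by_contra fun hn => ?_⟩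
    · have hwr := hS.real w hw
      obtain ⟨y, hy0, hy1, hyn, hyp⟩ := FA.HeckeCharFE.exists_negative_at h𝔐 hwr
      have hc : Ideal.span {y} ⊔ 𝔐 = ⊤ :=
        IsSemiRay.sup_eq_top (S := ∅) ⟨hy0, hy1, fun w hw => absurd hw id⟩
      have h1 : f (Ideal.span {y}) = 1 := by
        set I : coprimeIdeals 𝔐 :=
          ⟨⟨Ideal.span {y}, mem_nonZeroDivisors_iff_ne_zero.2 (by simpa using hy0)⟩, hc⟩
        rw [show Ideal.span {y} = I.1.1 from rfl, hf, hsig y I.1 hy0 (hle₂ hy1) (fun w' hw' h => ?_)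
          rfl, map_one, Units.val_one]
        rw [← rv_eq_embedding h]
        exact hyp w' h fun e => hw' (e ▸ hun)
      rw [← hgf _ (by simpa using hy0) hc, hS.sgn y hy0 (hle hy1)] at h1
      have h2 : sgnS S (y : K) = -1 := by
        rw [sgnS, Finset.prod_eq_single_of_mem w hw fun w' hw' hne => by
          rw [Real.sign_of_pos (hyp w' (hS.real w' hw') hne), Complex.ofReal_one],
          Real.sign_of_neg hyn]
        simp
      rw [h2] at h1
      norm_num at h1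
    · exact mem_realRam.1 hw (isUnramifiedIn_of_algHom j (hL₁.unramInf w (by simpa using hn)))
  -- the conductor
  obtain ⟨𝔠, hciff, hc, hcsupp⟩ := FA.RayFields.exists_conductor K M
  have hdvd' : 𝔠 ∣ 𝔣 := (hciff 𝔣 h𝔣).1 hmod
  have hceq : 𝔠 = 𝔣 := by
    by_contra hne'
    obtain ⟨x, hx0, hxc, hx1, hxp, hxg⟩ :=
      hprim 𝔠 (lt_of_le_of_ne (Ideal.le_of_dvd hdvd') (Ne.symm hne'))
    obtain ⟨H, hH⟩ := hc.exists_classField
    obtain ⟨ω, -, -, hω⟩ := hH.artin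
    have hc𝔐 : Ideal.span {x} ⊔ 𝔐 = ⊤ :=
      sup_eq_top_of_support hxc h𝔐 fun v hv => (hsupp' v).2 (hsupp v hv)
    have hcc : Ideal.span {x} ⊔ 𝔠 = ⊤ :=
      top_le_iff.1 (hxc.symm.le.trans (sup_le_sup_left (Ideal.le_of_dvd hdvd') _))
    set I : (Ideal (𝓞 K))⁰ :=
      ⟨Ideal.span {x}, mem_nonZeroDivisors_iff_ne_zero.2 (by simpa using hx0)⟩
    have hone : rayClass hc.ne_bot ⟨I, hcc⟩ = 1 := by
      rw [← map_one (rayClass hc.ne_bot), rayClass_eq_iff]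
      exact ⟨1, x, isRayElt_one, ⟨hx0, hx1, hxp⟩, by simp [I, Ideal.one_eq_top]⟩
    have hA : artinHom M I = 1 := by
      have := hω ⟨I, hcc⟩
      rw [hone, map_one] at this
      exact this.symm
    refine hxg ?_
    rw [hgf _ (by simpa using hx0) hc𝔐, show Ideal.span {x} = (⟨I, hc𝔐⟩ : coprimeIdeals 𝔐).1.1
      from rfl, hf, hA, map_one, Units.val_one]
  have hnt : IsNontrivial g := by
    obtain ⟨σ, hσ⟩ : ∃ σ, ψ σ ≠ 1 := not_forall.1 fun h => hne (MonoidHom.ext h)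
    obtain ⟨v, hv, hvm⟩ :=
      ((infinite_artinAt (L := M) σ).sdiff (Ideal.finite_factors h𝔐)).nonempty
    have hvc : v.asIdeal ⊔ 𝔐 = ⊤ :=
      (sup_eq_top_iff_not_le v 𝔐).2 fun h => hvm (Ideal.dvd_iff_le.2 h)
    refine ⟨v.asIdeal, v.ne_bot, ?_, ?_⟩ <;> rw [hgv v hvc, hv]
    · exact Units.ne_zero _
    · exact fun h => hσ (Units.ext h)
  exact ⟨𝔣, g, hS' ▸ hS, hprim, hnt, hceq ▸ hciff, hsupp', fun v hv =>
    hgv v ((sup_eq_top_iff_not_le v 𝔐).2 fun h => hv (hsupp v (Ideal.dvd_iff_le.2 h)))⟩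

/-- **A faithful linear character: conductor, signs and L-series.** -/
theorem exists_hecke_conductor_faithful (hψ : Function.Injective ψ) (hne : ψ ≠ 1) :
    ∃ (𝔣 : Ideal (𝓞 K)) (g : Ideal (𝓞 K) →* ℂ), HasSigns 𝔣 g (realRam K M) ∧
      IsPrimitiveChar 𝔣 g ∧ IsNontrivial g ∧ IsCond M 𝔣 ∧
      ∀ s : ℂ, 1 < s.re → FA.ArtinL.artinL (fun σ => (ψ σ : ℂ)) s = heckeL g s := by
  obtain ⟨𝔣, g, hS, hp, hnt, hc, hsupp, hval⟩ := exists_hecke_char_faithful ψ hψ hne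
  exact ⟨𝔣, g, hS, hp, hnt, hc, fun s hs => artinL_eq_heckeL ψ hψ hS.ray hsupp hval hs⟩

end faithful

variable {L : Type*} [Field L] [NumberField L] [Algebra K L] [IsGalois K L]

/-- The field cut out by a linear character is abelian with a faithful character inflating to it. -/
theorem exists_faithful (ψ : (L ≃ₐ[K] L) →* ℂˣ) :
    ∃ (_ : IsMulCommutative
        ((IntermediateField.fixedField ψ.ker) ≃ₐ[K] (IntermediateField.fixedField ψ.ker)))
      (ψM : ((IntermediateField.fixedField ψ.ker) ≃ₐ[K] (IntermediateField.fixedField ψ.ker)) →* ℂˣ),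
      Function.Injective ψM ∧ ∀ σ, ψM (AlgEquiv.restrictNormalHom _ σ) = ψ σ := by
  let M := IntermediateField.fixedField ψ.ker
  set res : (L ≃ₐ[K] L) →* (M ≃ₐ[K] M) := AlgEquiv.restrictNormalHom M
  have hsurj : Function.Surjective res := AlgEquiv.restrictNormalHom_surjective L
  have hker : res.ker = ψ.ker :=
    (IntermediateField.restrictNormalHom_ker M).trans
      (IntermediateField.fixingSubgroup_fixedField ψ.ker)
  set ψM : (M ≃ₐ[K] M) →* ℂˣ := res.liftOfSurjective hsurj ⟨ψ, hker.le⟩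
  have hψM : ∀ σ, ψM (res σ) = ψ σ := fun σ =>
    DFunLike.congr_fun (MonoidHom.liftOfRightInverse_comp res _
      (Function.rightInverse_surjInv hsurj) ⟨ψ, hker.le⟩) σ
  have hinj : Function.Injective ψM := (injective_iff_map_eq_one ψM).2 fun x hx => by
    obtain ⟨σ, rfl⟩ := hsurj x
    rw [hψM] at hx
    rwa [← MonoidHom.mem_ker, ← hker, MonoidHom.mem_ker] at hx
  exact ⟨⟨⟨fun a b => hinj (by rw [map_mul, map_mul, mul_comm])⟩⟩, ψM, hinj, hψM⟩

/-- **The conductor of a linear character.** -/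
theorem exists_isCond (ψ : (L ≃ₐ[K] L) →* ℂˣ) :
    ∃ 𝔣 : Ideal (𝓞 K), 𝔣 ≠ ⊥ ∧ IsCond (IntermediateField.fixedField ψ.ker) 𝔣 := by
  obtain ⟨_, -, -, -⟩ := exists_faithful ψ
  obtain ⟨𝔣, hiff, h, -⟩ := FA.RayFields.exists_conductor K (IntermediateField.fixedField ψ.ker)
  exact ⟨𝔣, h.ne_bot, hiff⟩

/-- The trivial character has conductor `1`. -/
theorem eq_top_of_isCond_one {𝔣 : Ideal (𝓞 K)}
    (h : IsCond (IntermediateField.fixedField (1 : (L ≃ₐ[K] L) →* ℂˣ).ker) 𝔣) (h0 : 𝔣 ≠ ⊥) :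
    𝔣 = ⊤ := by
  set M := IntermediateField.fixedField (1 : (L ≃ₐ[K] L) →* ℂˣ).ker
  obtain ⟨_, ψM, hinj, hψM⟩ := exists_faithful (1 : (L ≃ₐ[K] L) →* ℂˣ)
  haveI : Subsingleton (M ≃ₐ[K] M) := ⟨fun a b => hinj (by
    obtain ⟨σ, rfl⟩ := AlgEquiv.restrictNormalHom_surjective (F := K) (K₁ := M) L a
    obtain ⟨τ, rfl⟩ := AlgEquiv.restrictNormalHom_surjective (F := K) (K₁ := M) L b
    rw [hψM, hψM]
    rfl)⟩
  obtain ⟨𝔣', hiff, hm, hsupp⟩ := FA.RayFields.exists_conductor K M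
  rw [h.unique hiff h0 hm.ne_bot]
  by_contra hne
  obtain ⟨m, hm', hle⟩ := Ideal.exists_le_maximal _ hne
  let v : HeightOneSpectrum (𝓞 K) :=
    ⟨m, hm'.isPrime, fun h1 => hm.ne_bot (le_bot_iff.1 (h1 ▸ hle))⟩
  obtain ⟨Q, -, hQ⟩ := (hsupp v).1 (Ideal.dvd_iff_le.2 hle)
  exact hQ (Subsingleton.elim _ _)

/-- **A linear character: conductor, signs and L-series.** -/
theorem exists_hecke_conductor (ψ : (L ≃ₐ[K] L) →* ℂˣ) (hne : ψ ≠ 1) :
    ∃ (𝔣 : Ideal (𝓞 K)) (g : Ideal (𝓞 K) →* ℂ),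
      HasSigns 𝔣 g (realRam K (IntermediateField.fixedField ψ.ker)) ∧
      IsPrimitiveChar 𝔣 g ∧ IsNontrivial g ∧ IsCond (IntermediateField.fixedField ψ.ker) 𝔣 ∧
      ∀ s : ℂ, 1 < s.re → FA.ArtinL.artinL (fun σ => (ψ σ : ℂ)) s = heckeL g s := by
  obtain ⟨_, ψM, hinj, hψM⟩ := exists_faithful ψ
  have hneM : ψM ≠ 1 := fun he => hne (MonoidHom.ext fun σ => by rw [← hψM, he]; rfl)
  obtain ⟨𝔣, g, hS, hp, hnt, hc, h⟩ := exists_hecke_conductor_faithful ψM hinj hneM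
  refine ⟨𝔣, g, hS, hp, hnt, hc, fun s hs => ?_⟩
  rw [← h s hs, ← FA.ArtinL.artinL_inflation (K := K) (M := IntermediateField.fixedField ψ.ker)
    (L := L) (f := fun σ => (ψM σ : ℂ)) (fun g x => by simp) s]
  exact congrArg (fun g => FA.ArtinL.artinL g s)
    (funext fun σ => congrArg Units.val (hψM σ).symm)

end FA.ArtinFE

end
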